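import Fermat.Agent.A2.Mod.H142.S2
import Fermat.Agent.A2.Mod.H378.L11

/-!
# S35 / (G') leaf NODE-RAT, step (e) (helper558): `B = α(B_M) + p∞`

The chart `B = chartAlg y` of level `M q` (`y = x` or `x⁻¹`, `x = j · j_q`) is generated modulo
the component `p∞ = B ∩ w V∞` by the image under `α` of the level-`M` chart `B_M = chartAlg y_M`
(`y_M = j` resp. `j⁻¹`):

* `exists_map_sub_of_normal` : abstract form (the proof of `A2.Mod.H142.normalIn_transfer`,
                               keeping the witness `γ b₀`);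
* `surj_side`                : chart form (hypotheses of `A2.Mod.H142.normal_side`);
* `surj_inf`                 : `∀ b ∈ B, ∃ a ∈ B_M, b - α a ∈ w V∞`, from L11 (`ResInf`) and
                               good reduction at level `M`.
-/

set_option autoImplicit false
set_option synthInstance.maxHeartbeats 400000
set_option maxHeartbeats 1600000
set_option linter.unusedSectionVars false
set_option linter.style.haveILetI false

noncomputable section

namespace Fermat.Agent.S35.G.H558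

open ModularCurve HahnSeries Polynomial
open Fermat.Agent.A2.Mod

section Transfer

variable {R F₀ F : Type*} [CommRing R] [Field F₀] [Field F] [Algebra R F₀] [Algebra R F]

/-- The proof of `H142.normalIn_transfer`, keeping the witness: every element of `B` is
congruent modulo `𝔪_V` to `γ b₀` with `b₀ ∈ B₀`. -/
theorem exists_map_sub_of_normal (γ : F₀ →+* F)
    (V₀ : ValuationSubring F₀) (V : ValuationSubring F)
    (hγV : ∀ g ∈ V₀, γ g ∈ V)
    (hγp : ∀ g : F₀, V₀.valuation g < 1 → V.valuation (γ g) < 1)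
    (B₀ : Subalgebra R F₀) (B : Subalgebra R F)
    (hB₀ : ∀ b ∈ B₀, b ∈ V₀) (hB : ∀ b ∈ B, b ∈ V)
    (hγB : ∀ b ∈ B₀, γ b ∈ B)
    (hres : ∀ f ∈ V, ∃ g ∈ V₀, V.valuation (f - γ g) < 1)
    (hint : ∀ b : B, ((H142.resMap V B hB).comp (H142.mapSub γ B₀ B hγB)).IsIntegralElem
      (H142.resMap V B hB b))
    (hnorm₀ : H142.NormalIn V₀ (B₀ : Set F₀)) {f : F} (hf : f ∈ B) :
    ∃ b₀ ∈ B₀, V.valuation (f - γ b₀) < 1 := by
  classical
  set ρ := H142.resMap V B hB with hρ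
  set ρ₀ : B₀ →+* IsLocalRing.ResidueField V := ρ.comp (H142.mapSub γ B₀ B hγB) with hρ₀
  have h2 : ρ₀.IsIntegralElem (IsLocalRing.residue V ⟨f, hB f hf⟩) := hint ⟨f, hf⟩
  obtain ⟨g, hg, hfg⟩ := hres f (hB f hf)
  have hfg' : IsLocalRing.residue V ⟨f, hB f hf⟩ = IsLocalRing.residue V ⟨γ g, hγV g hg⟩ := by
    rw [H142.residue_eq_iff_val]
    exact hfg
  rw [hfg'] at h2
  obtain ⟨m, d, hrel₀⟩ := H142.exists_fin_of_isIntegralElem _ h2
  have hmem₀ : g ^ m + ∑ i : Fin m, (d i : F₀) * g ^ (i : ℕ) ∈ V₀ :=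
    V₀.add_mem _ _ (V₀.pow_mem hg m)
      (V₀.toSubring.sum_mem fun i _ => V₀.mul_mem _ _ (hB₀ _ (d i).2) (V₀.pow_mem hg _))
  have hval : V.valuation (γ (g ^ m + ∑ i : Fin m, (d i : F₀) * g ^ (i : ℕ))) < 1 := by
    have hv : (⟨γ g, hγV g hg⟩ ^ m + ∑ i : Fin m,
        (⟨γ (d i), hB _ (hγB _ (d i).2)⟩ : V) * ⟨γ g, hγV g hg⟩ ^ (i : ℕ) : V) =
        (⟨γ (g ^ m + ∑ i : Fin m, (d i : F₀) * g ^ (i : ℕ)), hγV _ hmem₀⟩ : V) := by
      apply Subtype.ext
      push_cast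
      simp only [map_add, map_pow, map_sum, map_mul]
    have h3 : IsLocalRing.residue V (⟨γ g, hγV g hg⟩ ^ m + ∑ i : Fin m,
        (⟨γ (d i), hB _ (hγB _ (d i).2)⟩ : V) * ⟨γ g, hγV g hg⟩ ^ (i : ℕ)) = 0 := by
      rw [map_add, map_pow, map_sum]
      simp only [map_mul, map_pow]
      exact hrel₀
    rw [hv, H142.residue_eq_zero_iff_val] at h3
    exact h3
  obtain ⟨b₀, hb₀, hgb⟩ := hnorm₀ g hg ⟨m, fun i => (d i : F₀), fun i => (d i).2,
    H142.val_lt_one_of_map γ V₀ V hγV hmem₀ hval⟩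
  refine ⟨b₀, hb₀, ?_⟩
  have hpres : V.valuation (γ (g - b₀)) < 1 := hγp _ hgb
  have : f - γ b₀ = (f - γ g) + γ (g - b₀) := by
    rw [map_sub]
    ring
  rw [this]
  exact lt_of_le_of_lt (Valuation.map_add _ _ _) (max_lt hfg hpres)

end Transfer

variable (P : ValuationSubring (AlgebraicClosure ℚ))
  (E : IntermediateField ℚ (AlgebraicClosure ℚ))
variable (M q : ℕ) [NeZero M] [NeZero q] (w : RE P E)

/-- **One component is parametrised by level `M`** (hypotheses of `H142.normal_side`):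
`chartAlg y = γ (chartAlg y_M) + (chartAlg y ∩ w V')`, together with `γ (chartAlg y_M) ⊆ chartAlg y`
and `chartAlg y_M ⊆ V_M`, `chartAlg y ⊆ V'`. -/
theorem surj_side (hS : Setting P E M q w)
    (VM : ValuationSubring (FE E M)) (hVM : IsVinf P E M VM)
    (V' : ValuationSubring (FE E (M * q))) (hU' : A2.H48.IsUnif V' (cE P E (M * q) w))
    (hRV' : ∀ r : RE P E, algebraMap (RE P E) (FE E (M * q)) r ∈ V')
    (γ : FE E M →ₐ[E] FE E (M * q))
    (hγV : ∀ g ∈ VM, γ g ∈ V')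
    (hres : ∀ f ∈ V', ∃ g ∈ VM, InW P E (M * q) V' w (f - γ g))
    (yM : FE E M) (y : FE E (M * q))
    (hyM : yM ∈ VM) (hy : y ∈ V')
    (hcong : InW P E (M * q) V' w (y - γ (yM ^ (q + 1))))
    (hγy : γ yM ∈ chartAlg P E (M * q) y)
    (hgood : GoodRedAt P E M w VM yM) :
    (∀ b ∈ chartAlg P E M yM, b ∈ VM) ∧
    (∀ b ∈ chartAlg P E (M * q) y, b ∈ V') ∧
    (∀ b ∈ chartAlg P E M yM, γ b ∈ chartAlg P E (M * q) y) ∧
    ∀ b ∈ chartAlg P E (M * q) y, ∃ a ∈ chartAlg P E M yM, InW P E (M * q) V' w (b - γ a) := by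
  have hdvr := hS.dvr
  have hL2M := H553.vinfBasic P E w M hS.M_ne_zero hdvr hS.unif VM hVM
  have hUM : A2.H48.IsUnif VM (cE P E M w) := hL2M.1
  have hRVM : ∀ r : RE P E, algebraMap (RE P E) (FE E M) r ∈ VM := fun r =>
    (hL2M.2.1 (r : E)).mpr r.2
  have hγR : ∀ r : RE P E, (γ : FE E M →+* FE E (M * q)) (algebraMap (RE P E) (FE E M) r) =
      algebraMap (RE P E) (FE E (M * q)) r := fun r => γ.commutes (r : E)
  have hγc : γ (cE P E M w) = cE P E (M * q) w := γ.commutes (w : E)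
  have hB₀ : ∀ b ∈ chartAlg P E M yM, b ∈ VM := fun b hb =>
    H142.mem_valuationSubring_of_isIntegral_adjoin VM hRVM hyM ((mem_chartAlg P E M).1 hb)
  have hB : ∀ b ∈ chartAlg P E (M * q) y, b ∈ V' := fun b hb =>
    H142.mem_valuationSubring_of_isIntegral_adjoin V' hRV' hy ((mem_chartAlg P E (M * q)).1 hb)
  have hγB : ∀ b ∈ chartAlg P E M yM, (γ : FE E M →+* FE E (M * q)) b ∈ chartAlg P E (M * q) y :=
    fun b hb => (mem_chartAlg P E (M * q)).2
      (H142.isIntegral_adjoin_map (γ : FE E M →+* FE E (M * q)) hγR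
        ((mem_chartAlg P E (M * q)).1 hγy) ((mem_chartAlg P E M).1 hb))
  have hγp : ∀ g : FE E M, VM.valuation g < 1 →
      V'.valuation ((γ : FE E M →+* FE E (M * q)) g) < 1 := by
    intro g hg
    rw [← H142.inW_iff hUM] at hg
    rw [← H142.inW_iff hU']
    unfold InW at hg ⊢
    have h1 := hγV _ hg
    rw [map_mul, map_inv₀, hγc] at h1
    exact h1
  have hres' : ∀ f ∈ V', ∃ g ∈ VM,
      V'.valuation (f - (γ : FE E M →+* FE E (M * q)) g) < 1 := by
    intro f hf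
    obtain ⟨g, hg, hfg⟩ := hres f hf
    exact ⟨g, hg, (H142.inW_iff hU' _).1 hfg⟩
  have hnorm₀ : H142.NormalIn VM
      ((chartAlg P E M yM : Subalgebra (RE P E) (FE E M)) : Set (FE E M)) := by
    intro f hf ⟨n, c, hc, hrel⟩
    obtain ⟨b, hb, hfb⟩ := hgood.normal f hf
      ⟨n, c, fun i => (H142.mem_chart_iff P E M yM (c i)).2 (hc i), (H142.inW_iff hUM _).2 hrel⟩
    exact ⟨b, (H142.mem_chart_iff P E M yM b).1 hb, (H142.inW_iff hUM _).1 hfb⟩
  have hint := H142.isIntegralElem_of_coord (γ : FE E M →+* FE E (M * q)) hγR V'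
    (chartAlg P E M yM) (chartAlg P E (M * q) y) hB hγB y (H142.self_mem_chartAlg P E (M * q) y)
    (yM ^ (q + 1)) (pow_mem (H142.self_mem_chartAlg P E M yM) _) ((H142.inW_iff hU' _).1 hcong)
    (fun b hb => (mem_chartAlg P E (M * q)).1 hb)
  refine ⟨hB₀, hB, hγB, fun b hb => ?_⟩
  obtain ⟨a, ha, hba⟩ := exists_map_sub_of_normal (γ : FE E M →+* FE E (M * q)) VM V' hγV hγp
    (chartAlg P E M yM) (chartAlg P E (M * q) y) hB₀ hB hγB hres' hint hnorm₀ hb
  exact ⟨a, ha, (H142.inW_iff hU' _).2 hba⟩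

/-- **Step (e) of NODE-RAT**: `B = α(B_M) + p∞` on both charts; also `B_M ⊆ V∞_M`, `B ⊆ V∞`,
`α(B_M) ⊆ B`. -/
theorem surj_inf (hS : Setting P E M q w)
    (VM : ValuationSubring (FE E M)) (V : ValuationSubring (FE E (M * q)))
    (hVM : IsVinf P E M VM) (hV : IsVinf P E (M * q) V)
    (yM : FE E M) (y : FE E (M * q)) (hy : IsCoordPair E M q yM y)
    (hgood : GoodRedAt P E M w VM yM) :
    (∀ b ∈ chartAlg P E M yM, b ∈ VM) ∧
    (∀ b ∈ chartAlg P E (M * q) y, b ∈ V) ∧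
    (∀ b ∈ chartAlg P E M yM, αE E M q b ∈ chartAlg P E (M * q) y) ∧
    ∀ b ∈ chartAlg P E (M * q) y, ∃ a ∈ chartAlg P E M yM,
      InW P E (M * q) V w (b - αE E M q a) := by
  have hL11 := H378.resInf P E M q w
  have hN : M * q ≠ 0 := Nat.mul_ne_zero hS.M_ne_zero hS.q_prime.ne_zero
  haveI : NeZero (M * q) := ⟨hN⟩
  haveI : NeZero (1 * q) := ⟨by rw [one_mul]; exact hS.q_prime.ne_zero⟩
  have hL2 := H553.vinfBasic P E w (M * q) hN hS.dvr hS.unif V hV
  have hL2M := H553.vinfBasic P E w M hS.M_ne_zero hS.dvr hS.unif VM hVM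
  have hL13 := H873.chartCompat P E M q hS.q_prime
  have hRV : ∀ r : RE P E, algebraMap (RE P E) (FE E (M * q)) r ∈ V := fun r =>
    (hL2.2.1 (r : E)).mpr r.2
  obtain ⟨j, hj⟩ : ∃ j : FE E (M * q), j = jE E (M * q) 1 (one_dvd _) := ⟨_, rfl⟩
  obtain ⟨jq, hjq⟩ : ∃ jq : FE E (M * q), jq = jE E (M * q) q (dvd_mul_left q M) := ⟨_, rfl⟩
  have hjV : j ∈ V ∧ j⁻¹ ∈ V := hj ▸ hL2.2.2 1 (one_dvd _)
  have hjqV : jq ∈ V ∧ jq⁻¹ ∈ V := hjq ▸ hL2.2.2 q (dvd_mul_left q M)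
  have hx : xE E M q = j * jq := by rw [hj, hjq]; rfl
  have hαj : αE E M q (jE E M 1 (one_dvd _)) = j := by
    rw [hj]
    exact H751.alpha_jE E M q 1 (one_dvd M)
  have hfrob : InW P E (M * q) V w (jq - j ^ q) := by
    have h := H142.frobCong (P := P) (E := E) (w := w) hS.q_prime hS.dvr hS.unif hS.lies_over
      hN hV 1 (one_dvd _) (by rw [one_mul]; exact dvd_mul_left q M)
    rw [hj, hjq]
    have h1 : jE E (M * q) (1 * q) (by rw [one_mul]; exact dvd_mul_left q M) =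
        jE E (M * q) q (dvd_mul_left q M) := H751.jE_congr E (M * q) (one_mul q) _ _
    rwa [h1] at h
  have hj0 : j ≠ 0 := hj ▸ H873.jE_ne_zero E (M * q) 1 (one_dvd _)
  have hjq0 : jq ≠ 0 := hjq ▸ H873.jE_ne_zero E (M * q) q (dvd_mul_left q M)
  have hcinv : (j * jq)⁻¹ - j⁻¹ ^ (q + 1) = -(jq - j ^ q) * (j⁻¹ * jq⁻¹ * j⁻¹ ^ q) := by
    have hjqb : jq * jq⁻¹ = 1 := mul_inv_cancel₀ hjq0
    have hpow : j ^ q * j⁻¹ ^ q = 1 := by rw [← mul_pow, mul_inv_cancel₀ hj0, one_pow]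
    have h1 : -(jq - j ^ q) * (j⁻¹ * jq⁻¹ * j⁻¹ ^ q) =
        (j ^ q * j⁻¹ ^ q) * (j⁻¹ * jq⁻¹) - (jq * jq⁻¹) * j⁻¹ ^ (q + 1) := by ring
    rw [h1, hpow, hjqb, mul_inv]
    ring
  rcases hy with ⟨rfl, rfl⟩ | ⟨rfl, rfl⟩
  · -- finite chart
    refine surj_side P E M q w hS VM hVM V hL2.1 hRV (αE E M q)
      (fun g hg => H142.alpha_mem P E M q hVM hV hg) (hL11 hS VM V hVM hV) _ _
      (hL2M.2.2 1 (one_dvd M)).1 ?_ ?_ ?_ hgood
    · rw [hx]
      exact V.mul_mem _ _ hjV.1 hjqV.1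
    · rw [map_pow, hαj, hx]
      have : j * jq - j ^ (q + 1) = (jq - j ^ q) * j := by ring
      rw [this]
      exact H142.inW_mul_right hfrob hjV.1
    · rw [hαj, hj]
      exact (H142.mem_chart_iff P E (M * q) _ _).1 hL13.1
  · -- chart at infinity
    refine surj_side P E M q w hS VM hVM V hL2.1 hRV (αE E M q)
      (fun g hg => H142.alpha_mem P E M q hVM hV hg) (hL11 hS VM V hVM hV) _ _
      (hL2M.2.2 1 (one_dvd M)).2 ?_ ?_ ?_ hgood
    · rw [hx, mul_inv]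
      exact V.mul_mem _ _ hjV.2 hjqV.2
    · rw [map_pow, map_inv₀, hαj, hx]
      rw [hcinv]
      exact H142.inW_mul_right (H142.inW_neg hfrob)
        (V.mul_mem _ _ (V.mul_mem _ _ hjV.2 hjqV.2) (pow_mem hjV.2 q))
    · rw [map_inv₀, hαj, hj]
      exact (H142.mem_chart_iff P E (M * q) _ _).1 hL13.2.2.1

end Fermat.Agent.S35.G.H558

end
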