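import Fermat.Agent.S35.G.SpecLevel
import Fermat.Agent.S35.G.H558.Surj
import Fermat.Agent.A2.Mod.H900.L7
import Fermat.Agent.S35.H558.FixCore

/-!
# S35 / (G') leaf NODE-RAT (helper558)

`nodeRat : KronFrobStatement A E M q w → StableStatement A E → NodeRatStatement A E M q w`
(all three statements VERBATIM from helper450's `S35/G/SpecLevel.lean`).

*The crossing points of the two components of the special fibre of `X₀(M q)` are fixed by the
square of a Frobenius lift* (the supersingular points are `𝔽_{q²}`-rational).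

Proof (`σ` = action of the Frobenius lift `s` on coefficients, `ψ = σ²`, `B = chartAlg y`,
`B_M = chartAlg y_M`, `n ⊇ p∞ + p₀` a crossing point):

* (e)  `B = α(B_M) + p∞`                       (`surj_inf`: L11 + good reduction at level `M`);
* (K1) `β(σ a) ≡ (α a)^q  mod p∞`              (KRON-FROB, hypothesis);
* (K2) `α(σ a) ≡ (β a)^q  mod p₀`              (K1 + Fricke: L5, L7, STABLE);
* `b ≡ α a mod p∞`  ⟹  `ψ b ≡ α(σ² a) mod p∞` (STABLE; `α` commutes with `σ`);
* `α(σ² a) ≡ (β(σ a))^q ≡ (α a)^(q²) ≡ b^(q²)  mod n`, so `ψ b ≡ b^(q²) mod n`.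

The leaves L2 (H553), L4/L5 (H751), L7 (H900), L11 (H378), L13 (H873) are taken from main.
-/

set_option autoImplicit false
set_option synthInstance.maxHeartbeats 400000
set_option maxHeartbeats 1600000
set_option linter.unusedSectionVars false
set_option linter.style.haveILetI false

noncomputable section

namespace Fermat.Agent.S35.G.H558

open ModularCurve HahnSeries Polynomial
open Fermat.Agent.A2.Mod
open scoped Pointwise

/-! ### Generalities on the coefficient action -/

section Act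

variable (E : IntermediateField ℚ (AlgebraicClosure ℚ)) (N : ℕ)

theorem actE_mul_apply (t₁ t₂ : E ≃ₐ[ℚ] E) (f : FE E N) :
    actE E N (t₁ * t₂) f = actE E N t₁ (actE E N t₂ f) := by
  apply Subtype.ext
  show coeffMap ((t₁ * t₂ : E ≃ₐ[ℚ] E) : E →+* E) (f : LaurentSeries E)
      = coeffMap (t₁ : E →+* E) (coeffMap (t₂ : E →+* E) (f : LaurentSeries E))
  rw [coeffMap_coeffMap]
  exact coeffMap_congr (RingHom.ext fun _ => rfl) _

theorem actE_cancel (t₁ t₂ : E ≃ₐ[ℚ] E) (h : ∀ e : E, t₁ (t₂ e) = e) (f : FE E N) :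
    actE E N t₁ (actE E N t₂ f) = f := by
  apply Subtype.ext
  show coeffMap (t₁ : E →+* E) (coeffMap (t₂ : E →+* E) (f : LaurentSeries E))
      = (f : LaurentSeries E)
  rw [coeffMap_coeffMap,
    coeffMap_congr (g := RingHom.id E) (RingHom.ext fun a => h a) (f : LaurentSeries E),
    coeffMap_id]

theorem actE_jE (d : ℕ) [NeZero d] (hd : d ∣ N) (t : E ≃ₐ[ℚ] E) :
    actE E N t (jE E N d hd) = jE E N d hd :=
  Subtype.ext (coeffMap_coeffEmb t _)

theorem alpha_actE (M q : ℕ) [NeZero M] [NeZero q] (t : E ≃ₐ[ℚ] E) (a : FE E M) :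
    αE E M q (actE E M t a) = actE E (M * q) t (αE E M q a) := by
  apply Subtype.ext
  rw [coe_heckeAlphaBar, coe_arithmeticRingAut_apply, coe_arithmeticRingAut_apply,
    coe_heckeAlphaBar]

end Act

/-- A ring endomorphism `σ` of `F`, semilinear over `ρ : R →+* R` and fixing `y`, preserves the
integral closure of `R[y]`. -/
theorem isIntegral_adjoin_semilinear {R F : Type*} [CommRing R] [Field F] [Algebra R F]
    (σ : F →+* F) (ρ : R →+* R)
    (hσ : ∀ r : R, σ (algebraMap R F r) = algebraMap R F (ρ r)) {y : F} (hy : σ y = y) {b : F}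
    (hb : IsIntegral (Algebra.adjoin R ({y} : Set F)) b) :
    IsIntegral (Algebra.adjoin R ({y} : Set F)) (σ b) := by
  have hle : ∀ a ∈ Algebra.adjoin R ({y} : Set F), σ a ∈ Algebra.adjoin R ({y} : Set F) := by
    intro a ha
    induction ha using Algebra.adjoin_induction with
    | mem z hz =>
        rw [Set.mem_singleton_iff] at hz
        rw [hz, hy]
        exact Algebra.subset_adjoin (Set.mem_singleton y)
    | algebraMap r =>
        rw [hσ]
        exact Subalgebra.algebraMap_mem _ _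
    | add a c _ _ ha hc =>
        rw [map_add]
        exact add_mem ha hc
    | mul a c _ _ ha hc =>
        rw [map_mul]
        exact mul_mem ha hc
  let φ : ↥(Algebra.adjoin R ({y} : Set F)) →+* ↥(Algebra.adjoin R ({y} : Set F)) :=
    { toFun := fun a => ⟨σ (a : F), hle a a.2⟩
      map_one' := Subtype.ext (map_one σ)
      map_mul' := fun a c => Subtype.ext (map_mul σ (a : F) (c : F))
      map_zero' := Subtype.ext (map_zero σ)
      map_add' := fun a c => Subtype.ext (map_add σ (a : F) (c : F)) }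
  exact IsIntegral.map_of_comp_eq φ σ (RingHom.ext fun _ => rfl) hb

/-! ### The decomposition group acts on the level structures -/

section Decomp

variable (A : ValuationSubring (AlgebraicClosure ℚ))
  (E : IntermediateField ℚ (AlgebraicClosure ℚ))

/-- `E` is stable under `s⁻¹` as well. -/
theorem stableUnder_inv {s : AlgebraicClosure ℚ ≃ₐ[ℚ] AlgebraicClosure ℚ}
    (hs : StableUnder E s) : StableUnder E s⁻¹ :=
  fun e he => ⟨(hs e he).2, (hs e he).1⟩

/-- The restriction to `E` of an element of the decomposition group preserves `R_E`. -/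
theorem resE_mem_RE_of_decomp {s : AlgebraicClosure ℚ ≃ₐ[ℚ] AlgebraicClosure ℚ}
    (hs : StableUnder E s) (hsD : s ∈ A.decompositionSubgroup ℚ) :
    ∀ r : E, r ∈ RE A E → resE E s hs r ∈ RE A E := by
  intro r hr
  rw [ValuationSubring.mem_comap] at hr ⊢
  have h : s • A = A := MulAction.mem_stabilizer_iff.mp hsD
  have h1 : s • (algebraMap E (AlgebraicClosure ℚ) r) ∈ s • A :=
    ValuationSubring.smul_mem_pointwise_smul s _ A hr
  rw [h] at h1
  exact h1

/-- The restriction of `s ∈ D_A` to `R_E`, as a ring endomorphism. -/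
def resRE {s : AlgebraicClosure ℚ ≃ₐ[ℚ] AlgebraicClosure ℚ}
    (hs : StableUnder E s) (hsD : s ∈ A.decompositionSubgroup ℚ) : RE A E →+* RE A E where
  toFun r := ⟨resE E s hs (r : E), resE_mem_RE_of_decomp A E hs hsD r r.2⟩
  map_one' := Subtype.ext (map_one (resE E s hs))
  map_mul' a b := Subtype.ext (map_mul (resE E s hs) (a : E) (b : E))
  map_zero' := Subtype.ext (map_zero (resE E s hs))
  map_add' a b := Subtype.ext (map_add (resE E s hs) (a : E) (b : E))

/-- The chart of a coordinate fixed by `σ` is `σ`-stable. -/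
theorem chartAlg_actE (N : ℕ) {s : AlgebraicClosure ℚ ≃ₐ[ℚ] AlgebraicClosure ℚ}
    (hs : StableUnder E s) (hsD : s ∈ A.decompositionSubgroup ℚ) (y : FE E N)
    (hy : actE E N (resE E s hs) y = y) {b : FE E N} (hb : b ∈ chartAlg A E N y) :
    actE E N (resE E s hs) b ∈ chartAlg A E N y := by
  rw [mem_chartAlg] at hb ⊢
  exact isIntegral_adjoin_semilinear
    ((actE E N (resE E s hs) : FE E N ≃+* FE E N) : FE E N →+* FE E N) (resRE A E hs hsD)
    (fun r => arithmeticRingAut_algebraMap (modularFunctionFieldFull N) (resE E s hs) (r : E))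
    hy hb

variable (w : RE A E)

/-- `σ (w V) ⊆ w V` for `σ` in the decomposition group (from STABLE for `s` and `s⁻¹`). -/
theorem inW_actE (hSt : StableStatement A E) (N : ℕ) (hN : N ≠ 0)
    (hdvr : IsDiscreteValuationRing (RE A E)) (hw : Irreducible w)
    (V : ValuationSubring (FE E N)) (W : FE E N ≃ₐ[E] FE E N)
    (hV : IsVinf A E N V) (hW : IsFricke E N W)
    {s : AlgebraicClosure ℚ ≃ₐ[ℚ] AlgebraicClosure ℚ}
    (hs : StableUnder E s) (hsD : s ∈ A.decompositionSubgroup ℚ)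
    {f : FE E N} (hf : InW A E N V w f) :
    InW A E N V w (actE E N (resE E s hs) f) := by
  have hU : A2.H48.IsUnif V (cE A E N w) := (H553.vinfBasic A E w N hN hdvr hw V hV).1
  rw [H142.inW_iff hU] at hf ⊢
  have hσV := (hSt N hN hdvr V W hV hW s hs hsD).2
  have hσV' := (hSt N hN hdvr V W hV hW s⁻¹ (stableUnder_inv E hs) (inv_mem hsD)).2
  have hcancel : ∀ g : FE E N,
      actE E N (resE E s⁻¹ (stableUnder_inv E hs)) (actE E N (resE E s hs) g) = g :=
    fun g => actE_cancel E N _ _ (fun e => Subtype.ext (s.symm_apply_apply (e : _))) g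
  have hfV : f ∈ V := (V.valuation_le_one_iff f).1 hf.le
  have hσf : actE E N (resE E s hs) f ∈ V := hσV f hfV
  by_contra hcon
  rw [not_lt] at hcon
  have hone : V.valuation (actE E N (resE E s hs) f) = 1 :=
    le_antisymm ((V.valuation_le_one_iff _).2 hσf) hcon
  have hinv : (actE E N (resE E s hs) f)⁻¹ ∈ V := by
    rw [← V.valuation_le_one_iff, map_inv₀, hone, inv_one]
  have h2 := hσV' _ hinv
  rw [map_inv₀, hcancel] at h2
  have h3 : V.valuation f⁻¹ ≤ 1 := (V.valuation_le_one_iff _).2 h2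
  have hf0 : f ≠ 0 := by
    rintro rfl
    rw [map_zero, map_zero] at hone
    exact zero_ne_one hone
  have hne : V.valuation f ≠ 0 := (Valuation.ne_zero_iff _).2 hf0
  rw [map_inv₀, inv_le_one₀ (zero_lt_iff.2 hne)] at h3
  exact absurd hf (not_lt.2 h3)

end Decomp

/-! ### NODE-RAT -/

section Main

variable (A : ValuationSubring (AlgebraicClosure ℚ))
  (E : IntermediateField ℚ (AlgebraicClosure ℚ)) (M q : ℕ) [NeZero M] [NeZero q] (w : RE A E)

/-- `β` maps the level-`M` chart into the level-`M q` chart. -/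
theorem beta_mem_chartAlg (hS : Setting A E M q w) (yM : FE E M) (y : FE E (M * q))
    (hy : IsCoordPair E M q yM y) {g : FE E M} (hg : g ∈ chartAlg A E M yM) :
    βE E M q g ∈ chartAlg A E (M * q) y := by
  have hL13 := H873.chartCompat A E M q hS.q_prime
  have hβR : ∀ r : RE A E, (βE E M q : FE E M →+* FE E (M * q)) (algebraMap (RE A E) (FE E M) r) =
      algebraMap (RE A E) (FE E (M * q)) r := fun r => (βE E M q).commutes (r : E)
  haveI : NeZero (q * 1) := ⟨by rw [mul_one]; exact hS.q_prime.ne_zero⟩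
  have hβj : βE E M q (jE E M 1 (one_dvd _)) = jE E (M * q) q (dvd_mul_left q M) := by
    rw [H751.beta_jE E M q 1 (one_dvd M)]
    exact H751.jE_congr E (M * q) (mul_one q) _ _
  have hβy : βE E M q yM ∈ chartAlg A E (M * q) y := by
    rcases hy with ⟨rfl, rfl⟩ | ⟨rfl, rfl⟩
    · rw [hβj]
      exact (H142.mem_chart_iff A E (M * q) _ _).1 hL13.2.1
    · rw [map_inv₀, hβj]
      exact (H142.mem_chart_iff A E (M * q) _ _).1 hL13.2.2.2
  exact (mem_chartAlg A E (M * q)).2
    (H142.isIntegral_adjoin_map (βE E M q : FE E M →+* FE E (M * q)) hβR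
      ((mem_chartAlg A E (M * q)).1 hβy) ((mem_chartAlg A E M).1 hg))

/-- **NODE-RAT** from KRON-FROB and STABLE. -/
theorem nodeRat (hK : KronFrobStatement A E M q w) (hSt : StableStatement A E) :
    NodeRatStatement A E M q w := by
  intro hS _ VM V W hVM hV hW yM y hy hgoodM c hcut₁ hcut₂ s hs hFrob n _ hp₁ hp₂ b hbn b' hb'
  have hN : M * q ≠ 0 := Nat.mul_ne_zero hS.M_ne_zero hS.q_prime.ne_zero
  haveI : NeZero (M * q) := ⟨hN⟩
  have hsD : s ∈ A.decompositionSubgroup ℚ := hFrob.mem_decompositionSubgroup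
  have hWM := H751.isFricke_frickeE E M
  obtain ⟨hcommM, -⟩ :=
    hSt M hS.M_ne_zero hS.dvr VM (H751.frickeE E M) hVM hWM s hs hsD
  -- step (e): `b ≡ α a mod p∞`
  obtain ⟨hBM, -, hαB, hsurj⟩ := surj_inf A E M q w hS VM V hVM hV yM y hy hgoodM
  obtain ⟨a, ha, hba⟩ := hsurj (b : FE E (M * q)) b.2
  -- the level-`M` chart is `σ`-stable
  have hσy : actE E M (resE E s hs) yM = yM := by
    rcases hy with ⟨rfl, -⟩ | ⟨rfl, -⟩
    · exact actE_jE E M 1 (one_dvd _) _
    · rw [map_inv₀, actE_jE]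
  obtain ⟨a₁, ha₁⟩ : ∃ a₁ : FE E M, a₁ = actE E M (resE E s hs) a := ⟨_, rfl⟩
  obtain ⟨a₂, ha₂⟩ : ∃ a₂ : FE E M, a₂ = actE E M (resE E s hs) a₁ := ⟨_, rfl⟩
  have ha₁B : a₁ ∈ chartAlg A E M yM := ha₁ ▸ chartAlg_actE A E M hs hsD yM hσy ha
  have ha₂B : a₂ ∈ chartAlg A E M yM := ha₂ ▸ chartAlg_actE A E M hs hsD yM hσy ha₁B
  -- (K1) at `a`
  have e1 : InW A E (M * q) V w (βE E M q a₁ - (αE E M q a) ^ q) := by
    rw [ha₁]
    exact hK hS VM V hVM hV s hs hFrob a (hBM a ha)
  -- (K2) at `a₁`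
  have e2 : InW A E (M * q) (V.comap (W : FE E (M * q) →+* FE E (M * q))) w
      (αE E M q a₂ - (βE E M q a₁) ^ q) := by
    rw [H142.inW_comap_iff]
    have hL5 := H751.frickeCompat E M q (H751.frickeE E M) W hWM hW
    have hL7 := H900.frickeStable A E M q w hS VM (H751.frickeE E M) hVM hWM
    have h1 := hK hS VM V hVM hV s hs hFrob (H751.frickeE E M a₁) (hL7 a₁ (hBM a₁ ha₁B))
    rw [map_sub, map_pow, (hL5 a₂).1, (hL5 a₁).2, ha₂, ← hcommM a₁]
    exact h1
  -- `ψ b ≡ α (σ² a) mod p∞`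
  have e3 : InW A E (M * q) V w ((b' : FE E (M * q)) - αE E M q a₂) := by
    have h1 := inW_actE A E w hSt (M * q) hN hS.dvr hS.unif V W hV hW hs hsD
      (inW_actE A E w hSt (M * q) hN hS.dvr hS.unif V W hV hW hs hsD hba)
    rw [map_sub, map_sub, ← alpha_actE, ← alpha_actE, ← ha₁, ← ha₂, ← actE_mul_apply] at h1
    rw [hb']
    exact h1
  -- the computation in `B / n`
  have hαa : αE E M q a ∈ chartAlg A E (M * q) y := hαB a ha
  have hβa₁ : βE E M q a₁ ∈ chartAlg A E (M * q) y :=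
    beta_mem_chartAlg A E M q w hS yM y hy ha₁B
  have hαa₂ : αE E M q a₂ ∈ chartAlg A E (M * q) y := hαB a₂ ha₂B
  obtain ⟨ua, hua⟩ : ∃ u : chartAlg A E (M * q) y, (u : FE E (M * q)) = αE E M q a :=
    ⟨⟨_, hαa⟩, rfl⟩
  obtain ⟨ub, hub⟩ : ∃ u : chartAlg A E (M * q) y, (u : FE E (M * q)) = βE E M q a₁ :=
    ⟨⟨_, hβa₁⟩, rfl⟩
  obtain ⟨uc, huc⟩ : ∃ u : chartAlg A E (M * q) y, (u : FE E (M * q)) = αE E M q a₂ :=
    ⟨⟨_, hαa₂⟩, rfl⟩
  have m1 : b - ua ∈ n := hp₁ ((hcut₁ _).2 (by
    rw [← hua] at hba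
    exact hba))
  have m2 : ub - ua ^ q ∈ n := hp₁ ((hcut₁ _).2 (by
    rw [← hua, ← hub] at e1
    exact e1))
  have m3 : uc - ub ^ q ∈ n := hp₂ ((hcut₂ _).2 (by
    rw [← huc, ← hub] at e2
    exact e2))
  have m4 : b' - uc ∈ n := hp₁ ((hcut₁ _).2 (by
    rw [← huc] at e3
    exact e3))
  have m5 : ub ^ q - (ua ^ q) ^ q ∈ n := Fermat.Agent.S35.H558.pow_sub_pow_mem_fix m2 q
  have m6 : (b ^ q) ^ q - (ua ^ q) ^ q ∈ n := by
    rw [← pow_mul, ← pow_mul]
    exact Fermat.Agent.S35.H558.pow_sub_pow_mem_fix m1 (q * q)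
  have m7 : (b ^ q) ^ q ∈ n :=
    n.pow_mem_of_mem (n.pow_mem_of_mem hbn q hS.q_prime.pos) q hS.q_prime.pos
  have key : b' = (b' - uc) + (uc - ub ^ q) + (ub ^ q - (ua ^ q) ^ q)
      - ((b ^ q) ^ q - (ua ^ q) ^ q) + (b ^ q) ^ q := by ring
  rw [key]
  exact n.add_mem (n.sub_mem (n.add_mem (n.add_mem m4 m3) m5) m6) m7

end Main

end Fermat.Agent.S35.G.H558

end
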