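import Fermat.Agent.S35.G.SpecLevel
import Fermat.Agent.A2.IF.H558.DecompStable

/-!
# S35 / (G') leaf IFs (helper558): `s`-stable good levels

`ifs : IFsStatement` (helper450's `S35/G/SpecLevel.lean`, verbatim): every finite set of algebraic
numbers lies in a level `E` which is good for `A` (`A2.GoodField`) and stable under any given
element `s` of the decomposition group of `A` (and under `s⁻¹`).

The level is helper429's `level A S = ℚ̄^{I_A}(all ℚ-conjugates of S)`; its stability under the
whole decomposition group is `A2.IF.H558.exists_goodField_decompStable`.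
-/

set_option autoImplicit false

namespace Fermat.Agent.S35.G.H558

/-- **IFs.** -/
theorem ifs : Fermat.Agent.S35.G.IFsStatement := by
  intro q hq A hA s hs S
  obtain ⟨E, hSE, hgood, hstab, -⟩ :=
    Fermat.Agent.A2.IF.H558.exists_goodField_decompStable q hq A hA S
  refine ⟨E, hSE, hgood, fun e he => ⟨(hstab s hs e).mp he, ?_⟩⟩
  exact (hstab s⁻¹ (inv_mem hs) e).mp he

end Fermat.Agent.S35.G.H558
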